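/-
PROJECT M (S15), block (K-P) (helper29), item (KP-3'), part 1: SEMILINEAR LANG.

`exists_fixed_ne_zero`: let `k` be algebraically closed, `V ≠ 0` a finite-dimensional `k`-space,
`q ≥ 2`, and `T : V →+ V` an injective additive map with `T (a • v) = a ^ q • T v`.  Then `T` has
a non-zero fixed vector.

Proof: take `v₀ ≠ 0` and the least `m` with `T^m v₀ = ∑_{i<m} c_i T^i v₀`.  For `y : k` put
`x_0 = c_0 y^q`, `x_{i+1} = x_i^q + c_{i+1} y^q` and `u = ∑_{i<m} x_i T^i v₀`; then
`T u = u + (x_{m-1}^q - y^q) T^m v₀`.  The polynomial `Λ_{m-1}(Y) - Y` (`x_i = Λ_i(y)`) is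
`Y (Y R - 1)` with `R ≠ 0`, so it has a root `y ≠ 0`; then `x_{m-1} = y`, `T u = u`, and `u ≠ 0` by
the linear independence of `v₀, …, T^{m-1} v₀`.  No hypothesis on the characteristic.
-/
import Mathlib

set_option autoImplicit false

namespace Fermat.Agent.S15.P.FrobFixed.Lang

open Polynomial

section Poly

variable {k : Type*} [Field k] (q : ℕ) (c : ℕ → k)

/-- The polynomials `Λ_i`. -/
noncomputable def lam : ℕ → k[X]
  | 0 => C (c 0) * X ^ q
  | (i + 1) => lam i ^ q + C (c (i + 1)) * X ^ q

lemma lam_zero : lam q c 0 = C (c 0) * X ^ q := rfl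

lemma lam_succ (i : ℕ) : lam q c (i + 1) = lam q c i ^ q + C (c (i + 1)) * X ^ q := rfl

variable {q}

lemma X_sq_dvd_lam (hq : 2 ≤ q) (i : ℕ) : (X : k[X]) ^ 2 ∣ lam q c i := by
  induction i with
  | zero =>
    rw [lam_zero]
    exact Dvd.dvd.mul_left (pow_dvd_pow X hq) _
  | succ i ih =>
    rw [lam_succ]
    refine dvd_add (ih.trans (dvd_pow_self _ (by omega))) ?_
    exact Dvd.dvd.mul_left (pow_dvd_pow X hq) _

lemma natDegree_C_mul_X_pow_le' (a : k) : (C a * (X : k[X]) ^ q).natDegree ≤ q :=
  natDegree_C_mul_X_pow_le a q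

lemma le_natDegree_lam (hq : 2 ≤ q) (i : ℕ) (h : lam q c i ≠ 0) : q ≤ (lam q c i).natDegree := by
  induction i with
  | zero =>
    rw [lam_zero] at h ⊢
    have hc : c 0 ≠ 0 := by
      rintro h0
      rw [h0, C_0, zero_mul] at h
      exact h rfl
    rw [natDegree_C_mul_X_pow q (c 0) hc]
  | succ i ih =>
    rw [lam_succ] at h ⊢
    by_cases h0 : lam q c i = 0
    · rw [h0, zero_pow (by omega), zero_add] at h ⊢
      have hc : c (i + 1) ≠ 0 := by
        rintro h1
        rw [h1, C_0, zero_mul] at h
        exact h rfl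
      rw [natDegree_C_mul_X_pow q _ hc]
    · have h1 := ih h0
      have h2 : (lam q c i ^ q).natDegree = q * (lam q c i).natDegree := natDegree_pow _ _
      have h3 : (C (c (i + 1)) * (X : k[X]) ^ q).natDegree < (lam q c i ^ q).natDegree := by
        rw [h2]
        calc (C (c (i + 1)) * (X : k[X]) ^ q).natDegree ≤ q := natDegree_C_mul_X_pow_le _ _
          _ < q * q := by nlinarith
          _ ≤ q * (lam q c i).natDegree := Nat.mul_le_mul_left _ h1
      rw [natDegree_add_eq_left_of_natDegree_lt h3, h2]
      calc q = q * 1 := (mul_one q).symm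
        _ ≤ q * (lam q c i).natDegree := Nat.mul_le_mul_left _ (by omega)

lemma coeff_eq_zero_of_lam_eq_zero (hq : 2 ≤ q) (i : ℕ) (h : lam q c i = 0) :
    ∀ j ≤ i, c j = 0 := by
  induction i with
  | zero =>
    intro j hj
    obtain rfl : j = 0 := by omega
    rw [lam_zero] at h
    by_contra hc
    have := natDegree_C_mul_X_pow q (c 0) hc
    rw [h, natDegree_zero] at this
    omega
  | succ i ih =>
    intro j hj
    rw [lam_succ] at h
    by_cases h0 : lam q c i = 0
    · rw [h0, zero_pow (by omega), zero_add] at h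
      have hc : c (i + 1) = 0 := by
        by_contra hc
        have := natDegree_C_mul_X_pow q (c (i + 1)) hc
        rw [h, natDegree_zero] at this
        omega
      rcases Nat.lt_or_ge j (i + 1) with hlt | hge
      · exact ih h0 j (by omega)
      · obtain rfl : j = i + 1 := by omega
        exact hc
    · exfalso
      have h1 := le_natDegree_lam c hq i h0
      have h2 : (lam q c i ^ q).natDegree = q * (lam q c i).natDegree := natDegree_pow _ _
      have h3 : (C (c (i + 1)) * (X : k[X]) ^ q).natDegree < (lam q c i ^ q).natDegree := by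
        rw [h2]
        calc (C (c (i + 1)) * (X : k[X]) ^ q).natDegree ≤ q := natDegree_C_mul_X_pow_le _ _
          _ < q * q := by nlinarith
          _ ≤ q * (lam q c i).natDegree := Nat.mul_le_mul_left _ h1
      have h4 := natDegree_add_eq_left_of_natDegree_lt h3
      rw [h, natDegree_zero, h2] at h4
      have : 0 < q * (lam q c i).natDegree := Nat.mul_pos (by omega) (by omega)
      omega

/-- A non-zero solution of `Λ_i(y) = y`. -/
lemma exists_eval_lam_eq [IsAlgClosed k] (hq : 2 ≤ q) (i : ℕ) (h : lam q c i ≠ 0) :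
    ∃ y : k, y ≠ 0 ∧ (lam q c i).eval y = y := by
  obtain ⟨R, hR⟩ := X_sq_dvd_lam c hq i
  have hR0 : R ≠ 0 := by
    rintro rfl
    rw [mul_zero] at hR
    exact h hR
  have hdeg : (X * R - 1 : k[X]).degree ≠ 0 := by
    have h1 : (X * R : k[X]).degree = 1 + R.degree := by
      rw [degree_mul, degree_X]
    have h2 : (1 : k[X]).degree < (X * R : k[X]).degree := by
      rw [h1, degree_one]
      have : (0 : WithBot ℕ) ≤ R.degree := zero_le_degree_iff.2 hR0
      calc (0 : WithBot ℕ) < 1 := by norm_num
        _ ≤ 1 + R.degree := le_add_of_nonneg_right this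
    rw [degree_sub_eq_left_of_degree_lt h2, h1]
    intro h3
    have : (0 : WithBot ℕ) ≤ R.degree := zero_le_degree_iff.2 hR0
    have h4 : (1 : WithBot ℕ) ≤ 1 + R.degree := le_add_of_nonneg_right this
    rw [h3] at h4
    exact absurd h4 (by norm_num)
  obtain ⟨y, hy⟩ := IsAlgClosed.exists_root _ hdeg
  rw [IsRoot.def, eval_sub, eval_mul, eval_X, eval_one, sub_eq_zero] at hy
  refine ⟨y, ?_, ?_⟩
  · rintro rfl
    rw [zero_mul] at hy
    exact zero_ne_one hy
  · rw [hR, eval_mul, eval_pow, eval_X, pow_two, mul_assoc, hy, mul_one]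

end Poly

section Main

variable {k V : Type*} [Field k] [IsAlgClosed k] [AddCommGroup V] [Module k V]
  [FiniteDimensional k V]

/-- **Semilinear Lang.**  An injective `q`-semilinear additive endomorphism (`q ≥ 2`) of a
non-zero finite-dimensional space over an algebraically closed field has a non-zero fixed
vector. -/
theorem exists_fixed_ne_zero [Nontrivial V] {q : ℕ} (hq : 2 ≤ q) (T : V →+ V)
    (hT : ∀ (a : k) (v : V), T (a • v) = a ^ q • T v) (hinj : Function.Injective T) :
    ∃ v : V, v ≠ 0 ∧ T v = v := by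
  classical
  obtain ⟨v0, hv0⟩ := exists_ne (0 : V)
  -- the orbit
  set w : ℕ → V := fun i => T^[i] v0 with hw
  have hw0 : w 0 = v0 := rfl
  have hwsucc : ∀ i, w (i + 1) = T (w i) := fun i => Function.iterate_succ_apply' T i v0
  have hwne : ∀ i, w i ≠ 0 := by
    intro i
    induction i with
    | zero => exact hv0
    | succ i ih =>
      rw [hwsucc]
      intro h
      exact ih (hinj (h.trans (map_zero T).symm))
  -- the least `m` such that `w 0, …, w m` are dependent
  let Pm : ℕ → Prop := fun m => LinearIndependent k (fun i : Fin m => w i)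
  have hex : ∃ m, ¬ Pm (m + 1) := by
    refine ⟨Module.finrank k V, fun h => ?_⟩
    have := h.fintype_card_le_finrank
    rw [Fintype.card_fin] at this
    omega
  set m := Nat.find hex with hm
  have hPm1 : ¬ Pm (m + 1) := Nat.find_spec hex
  have hPm : Pm m := by
    rcases Nat.eq_zero_or_pos m with h0 | hpos
    · rw [h0]
      exact linearIndependent_empty_type
    · have := Nat.find_min hex (m := m - 1) (by omega)
      rw [not_not] at this
      have h1 : m - 1 + 1 = m := by omega
      rwa [h1] at this
  -- `w m` is a combination of the previous ones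
  have hmem : w m ∈ Submodule.span k (Set.range fun i : Fin m => w i) := by
    by_contra hnot
    apply hPm1
    have h1 : LinearIndependent k (Fin.snoc (fun i : Fin m => w i) (w m) : Fin (m + 1) → V) :=
      (linearIndependent_finSnoc).2 ⟨hPm, hnot⟩
    have h2 : (Fin.snoc (fun i : Fin m => w i) (w m) : Fin (m + 1) → V) =
        fun i : Fin (m + 1) => w i := by
      funext i
      refine Fin.lastCases ?_ (fun j => ?_) i
      · rw [Fin.snoc_last]
        rfl
      · rw [Fin.snoc_castSucc]
        rfl
    rw [h2] at h1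
    exact h1
  obtain ⟨c', hc'⟩ := (Submodule.mem_span_range_iff_exists_fun k).1 hmem
  -- `m ≥ 1`
  have hmpos : 0 < m := by
    rcases Nat.eq_zero_or_pos m with h0 | hpos
    · exfalso
      have h1 : w m = 0 := by
        rw [← hc']
        apply Finset.sum_eq_zero
        intro i _
        exact absurd i.2 (by omega)
      exact hwne m h1
    · exact hpos
  -- coefficients as a function on `ℕ`
  set c : ℕ → k := fun i => if h : i < m then c' ⟨i, h⟩ else 0 with hc
  have hsum : w m = ∑ i ∈ Finset.range m, c i • w i := by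
    rw [← hc', Finset.sum_range]
    refine Finset.sum_congr rfl fun i _ => ?_
    rw [hc]
    simp only [i.2, dif_pos]
  -- the polynomial is non-zero
  have hlam : lam q c (m - 1) ≠ 0 := by
    intro h0
    have hall := coeff_eq_zero_of_lam_eq_zero c hq (m - 1) h0
    apply hwne m
    rw [hsum]
    apply Finset.sum_eq_zero
    intro i hi
    rw [hall i (by have := Finset.mem_range.1 hi; omega), zero_smul]
  obtain ⟨y, hy0, hy⟩ := exists_eval_lam_eq c hq (m - 1) hlam
  set x : ℕ → k := fun i => (lam q c i).eval y with hx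
  have hx0 : x 0 = c 0 * y ^ q := by
    rw [hx]
    simp only [lam_zero, eval_mul, eval_C, eval_pow, eval_X]
  have hxsucc : ∀ i, x (i + 1) = x i ^ q + c (i + 1) * y ^ q := by
    intro i
    rw [hx]
    simp only [lam_succ, eval_add, eval_mul, eval_C, eval_pow, eval_X]
  have hxlast : x (m - 1) = y := hy
  -- the fixed vector
  refine ⟨∑ i ∈ Finset.range m, x i • w i, ?_, ?_⟩
  · -- non-zero, by linear independence
    intro h0
    rw [Finset.sum_range] at h0
    have h1 := Fintype.linearIndependent_iff.1 hPm (fun i : Fin m => x i) h0 ⟨m - 1, by omega⟩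
    rw [hxlast] at h1
    exact hy0 h1
  · -- fixed
    obtain ⟨n, hn⟩ : ∃ n, m = n + 1 := ⟨m - 1, by omega⟩
    have hn' : m - 1 = n := by omega
    rw [hn'] at hxlast
    rw [map_sum]
    have h1 : ∀ i ∈ Finset.range m, T (x i • w i) = x i ^ q • w (i + 1) := by
      intro i _
      rw [hT, hwsucc]
    rw [Finset.sum_congr rfl h1, hn, Finset.sum_range_succ, ← hn, hsum, hn,
      Finset.sum_range_succ' (fun i => x i • w i), Finset.sum_range_succ' (fun i => c i • w i),
      hxlast]
    have h2 : ∀ i ∈ Finset.range n, x (i + 1) • w (i + 1) =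
        x i ^ q • w (i + 1) + y ^ q • c (i + 1) • w (i + 1) := by
      intro i _
      rw [hxsucc, add_smul, smul_smul, mul_comm]
    rw [Finset.sum_congr rfl h2, Finset.sum_add_distrib, ← Finset.smul_sum, smul_add, hx0,
      mul_comm (c 0), mul_smul]
    abel

end Main

end Fermat.Agent.S15.P.FrobFixed.Lang
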