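/-
PROJECT M (S15), block (K-P) (helper29), item (KP-3'), part 2: FINITENESS OF THE FIXED POINTS OF A
FROBENIUS-SEMILINEAR AUTOMORPHISM ON `Pic0`, abstract form.

Frame: `k` algebraically closed, `F / k` a function field in the prelude's language
(`AlgebraicCurve.Place / Divisor / Pic0`), Riemann's theorem as the hypothesis
`S18.NonSpecial.RiemannHyp k F g`, principal divisors (`HasPrincipalDivisors`), a semilinear
automorphism `Φ : SemilinearAut k F` over `a ↦ a ^ q` (`q ≥ 2`) and a separating variable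
`t` (`IsFF k t`) with `Φ • t = t`.

* `finite_fixed_places` : a place fixed by `Φ` is a pole of `t` or a zero of `t - a` with
  `a ^ q = a`: finitely many;
* `exists_effective_fixed` : a `Φ`-fixed class `[D]` is `[E - B]` with `E ≥ 0` a `Φ`-FIXED divisor
  of degree `deg B` (semilinear Lang on `L(D + B)`; `B` a fixed multiple of the pole divisor of `t`);
* `finite_fixed_pic0` : `{x : Pic0 k F | Φ • x = x}` is finite.
-/
import Fermat.Agent.S15.P.FrobFixed.Lang
import Fermat.Prelude.Def_AlgebraicCurve_BaseChangeGalois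
import Fermat.Agent.S18.NonSpecial
import Fermat.Agent.S24.Ord
import Fermat.Agent.S24.FF

set_option autoImplicit false

noncomputable section

namespace Fermat.Agent.S15.P.FrobFixed.Fixed

open AlgebraicCurve Fermat.Agent.S24.Ord Fermat.Agent.S18.NonSpecial Fermat.Agent.S24.FF

universe u v

variable {k : Type u} {F : Type v} [Field k] [Field F] [Algebra k F]

/-! ### Basics on Riemann-Roch spaces and degrees (self-contained copies) -/

section Basics

lemma mem_L_of_ne_zero {D : Divisor k F} {f : F} (hf : f ≠ 0) :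
    f ∈ riemannRochSpace D ↔ ∀ v : Place k F, -D v ≤ v.ord f := by
  rw [mem_riemannRochSpace_iff]
  exact forall_congr' fun v => or_iff_right hf

lemma mul_mem_L {D E : Divisor k F} {f g : F} (hf : f ≠ 0)
    (h : ∀ v : Place k F, E v = D v + v.ord f) (hg : g ∈ riemannRochSpace E) :
    f * g ∈ riemannRochSpace D := by
  rw [mem_riemannRochSpace_iff] at hg ⊢
  intro v
  rcases hg v with h0 | h1
  · left; rw [h0, mul_zero]
  · rcases eq_or_ne g 0 with h0 | hg0
    · left; rw [h0, mul_zero]
    · right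
      rw [v.ord_mul hf hg0]
      have := h v
      omega

lemma degree_eq_sum (D : Divisor k F) :
    Divisor.degree D = D.sum fun v n => n * (v.deg : ℤ) := by
  simp [Divisor.degree, Finsupp.liftAddHom_apply]

lemma degree_nonneg {D : Divisor k F} (hD : 0 ≤ D) : 0 ≤ Divisor.degree D := by
  rw [degree_eq_sum]
  apply Finsupp.sum_nonneg
  intro v _
  exact mul_nonneg (hD v) (Int.natCast_nonneg _)

lemma eq_zero_of_degree_eq_zero (hdeg : ∀ v : Place k F, v.deg = 1) {D : Divisor k F}
    (hD : 0 ≤ D) (h0 : Divisor.degree D = 0) : D = 0 := by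
  rw [degree_eq_sum, Finsupp.sum] at h0
  have h1 := (Finset.sum_eq_zero_iff_of_nonneg (fun v _ =>
    mul_nonneg (hD v) (Int.natCast_nonneg _))).mp h0
  ext v
  by_cases hv : v ∈ D.support
  · have := h1 v hv
    rw [hdeg v] at this
    simpa using this
  · simpa using hv

lemma one_mem_L_zero : (1 : F) ∈ riemannRochSpace (0 : Divisor k F) := by
  rw [mem_L_of_ne_zero one_ne_zero]
  intro v
  simp

/-- `L(0)` consists of the constants. -/
lemma exists_algebraMap_eq_of_mem_L_zero {g : ℕ} (hR : RiemannHyp k F g) {f : F}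
    (hf : f ∈ riemannRochSpace (0 : Divisor k F)) : ∃ c : k, f = algebraMap k F c := by
  have h1 : Module.finrank k (riemannRochSpace (0 : Divisor k F)) = 1 := hR.ell_zero
  have hne : (⟨1, one_mem_L_zero⟩ : riemannRochSpace (0 : Divisor k F)) ≠ 0 :=
    fun h => one_ne_zero (congrArg Subtype.val h)
  rw [finrank_eq_one_iff_of_nonzero' _ hne] at h1
  obtain ⟨c, hc⟩ := h1 ⟨f, hf⟩
  refine ⟨c, ?_⟩
  have := congrArg Subtype.val hc
  simp only [Submodule.coe_smul] at this
  rw [← this, Algebra.algebraMap_eq_smul_one]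

end Basics

/-! ### Generalities on semilinear automorphisms -/

section Semilinear

variable (Ψ : SemilinearAut k F)

lemma smul_sub_algebraMap (t : F) (a : k) :
    Ψ • (t - algebraMap k F a) = Ψ • t - algebraMap k F (SemilinearAut.baseAut Ψ a) := by
  rw [smul_sub, SemilinearAut.smul_algebraMap]

lemma ord_of_fixed {v : Place k F} (hv : Ψ • v = v) (f : F) : v.ord (Ψ • f) = v.ord f := by
  have h := SemilinearAut.ord_smul Ψ v f
  rwa [hv] at h

lemma ord_inv_smul_place (w : Place k F) (f : F) : (Ψ⁻¹ • w).ord f = w.ord (Ψ • f) := by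
  have h := SemilinearAut.ord_smul Ψ (Ψ⁻¹ • w) f
  rw [smul_inv_smul] at h
  exact h.symm

lemma baseAut_pow {q : ℕ} (hΨ : ∀ a : k, SemilinearAut.baseAut Ψ a = a ^ q) (n : ℕ) (a : k) :
    SemilinearAut.baseAut (Ψ ^ n) a = a ^ q ^ n := by
  induction n generalizing a with
  | zero => simp
  | succ n ih =>
    rw [pow_succ, SemilinearAut.baseAut_mul, RingAut.mul_apply, hΨ, ih, ← pow_mul, pow_succ,
      mul_comm]

lemma smul_pow_fixed {t : F} (ht : Ψ • t = t) (n : ℕ) : (Ψ ^ n) • t = t := by
  induction n with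
  | zero => simp
  | succ n ih => rw [pow_succ, mul_smul, ht, ih]

end Semilinear

/-! ### Fixed places -/

section Places

variable [IsAlgClosed k] [HasPrincipalDivisors k F] (Ψ : SemilinearAut k F) {Q : ℕ} (hQ : 2 ≤ Q)
  (hΨ : ∀ a : k, SemilinearAut.baseAut Ψ a = a ^ Q) {t : F} (ht : IsFF k t) (hΨt : Ψ • t = t)

include hQ hΨ ht hΨt in
/-- The places fixed by a Frobenius-semilinear automorphism fixing `t` are finite in number. -/
theorem finite_fixed_places : {v : Place k F | Ψ • v = v}.Finite := by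
  classical
  have ht0 : t ≠ 0 := fun h => ht.transcendental (h ▸ isAlgebraic_zero)
  have hta : ∀ a : k, t - algebraMap k F a ≠ 0 := by
    intro a h
    rw [sub_eq_zero] at h
    exact ht.transcendental (h ▸ isAlgebraic_algebraMap a)
  -- the finite set of possible centres
  have hpoly : (Polynomial.X ^ Q - Polynomial.X : Polynomial k) ≠ 0 := by
    intro h
    have h1 : (Polynomial.X ^ Q - Polynomial.X : Polynomial k).coeff Q =
        (0 : Polynomial k).coeff Q := by rw [h]
    rw [Polynomial.coeff_sub, Polynomial.coeff_X_pow, if_pos rfl, Polynomial.coeff_X,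
      if_neg (by omega), sub_zero, Polynomial.coeff_zero] at h1
    exact one_ne_zero h1
  set Z : Finset k := (Polynomial.X ^ Q - Polynomial.X : Polynomial k).roots.toFinset with hZ
  have hmemZ : ∀ a : k, a ^ Q = a → a ∈ Z := by
    intro a ha
    rw [hZ, Multiset.mem_toFinset, Polynomial.mem_roots hpoly, Polynomial.IsRoot.def,
      Polynomial.eval_sub, Polynomial.eval_pow, Polynomial.eval_X, ha, sub_self]
  -- divisors
  choose Da hDa using fun a : k => HasPrincipalDivisors.exists_divisor (K := k) _ (hta a)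
  obtain ⟨D0, hD0, -⟩ := HasPrincipalDivisors.exists_divisor (K := k) t ht0
  refine Set.Finite.subset
    ((D0.support ∪ Z.biUnion fun a => (Da a).support : Finset (Place k F)).finite_toSet) ?_
  intro v hv
  change Ψ • v = v at hv
  rw [Finset.mem_coe, Finset.mem_union]
  by_cases hle : v.adicValuation t ≤ 1
  · right
    obtain ⟨a, ha, huniq⟩ := exists_unique_center ht v hle
    have h1 : 0 < v.ord (t - algebraMap k F a) := (ord_pos_iff v (hta a)).2 ha
    have h2 : v.ord (Ψ • (t - algebraMap k F a)) = v.ord (t - algebraMap k F a) :=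
      ord_of_fixed Ψ hv _
    rw [smul_sub_algebraMap, hΨt, hΨ] at h2
    have h3 : v.adicValuation (t - algebraMap k F (a ^ Q)) < 1 :=
      (ord_pos_iff v (hta _)).1 (by rw [h2]; exact h1)
    have h4 : a ^ Q = a := huniq _ h3
    rw [Finset.mem_biUnion]
    refine ⟨a, hmemZ a h4, ?_⟩
    rw [Finsupp.mem_support_iff, (hDa a).1 v]
    omega
  · left
    rw [not_le] at hle
    have h1 : v.ord t < 0 := (ord_neg_iff v ht0).2 hle
    rw [Finsupp.mem_support_iff, hD0 v]
    omega

end Places

/-! ### An effective fixed representative -/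

section Effective

variable (Φ : SemilinearAut k F)

/-- `Φ` maps `L(D)` to `L(Φ • D)`. -/
lemma smul_mem_L {D : Divisor k F} {u : F} (hu : u ∈ riemannRochSpace D) :
    Φ • u ∈ riemannRochSpace (Φ • D) := by
  rw [mem_riemannRochSpace_iff] at hu ⊢
  intro w
  rcases hu (Φ⁻¹ • w) with h0 | h1
  · left
    rw [h0, smul_zero]
  · right
    rw [SemilinearAut.divisor_smul_apply, ← ord_inv_smul_place]
    exact h1

variable [IsAlgClosed k] {g : ℕ} (hR : RiemannHyp k F g) {q : ℕ} (hq : 2 ≤ q)
  (hΦ : ∀ a : k, SemilinearAut.baseAut Φ a = a ^ q)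

include hR hq hΦ in
/-- Semilinear Lang on a Riemann-Roch space: if `Φ • D' = D' + div h` and `L(D') ≠ 0`, there is a
non-zero `u ∈ L(D')` with `h * Φ u = u`. -/
theorem exists_fixed_in_L {D' : Divisor k F} {h : F} (hh : h ≠ 0)
    (hD' : ∀ v : Place k F, (Φ • D') v = D' v + v.ord h) (hell : 0 < ell D') :
    ∃ u : F, u ≠ 0 ∧ u ∈ riemannRochSpace D' ∧ h * (Φ • u) = u := by
  have hfin : Module.Finite k (riemannRochSpace D') := hR.finite D'
  have hnt : Nontrivial (riemannRochSpace D') := Module.nontrivial_of_finrank_pos hell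
  have hmem : ∀ u : riemannRochSpace D', h * (Φ • (u : F)) ∈ riemannRochSpace D' := fun u =>
    mul_mem_L hh hD' (smul_mem_L Φ u.2)
  let T : riemannRochSpace D' →+ riemannRochSpace D' :=
    { toFun := fun u => ⟨h * (Φ • (u : F)), hmem u⟩
      map_zero' := by
        apply Subtype.ext
        show h * (Φ • ((0 : riemannRochSpace D') : F)) = 0
        rw [Submodule.coe_zero, smul_zero, mul_zero]
      map_add' := fun u u' => by
        apply Subtype.ext
        show h * (Φ • ((u + u' : riemannRochSpace D') : F)) = h * (Φ • (u : F)) + h * (Φ • (u' : F))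
        rw [Submodule.coe_add, smul_add, mul_add] }
  have hTapply : ∀ u : riemannRochSpace D', ((T u : riemannRochSpace D') : F) = h * (Φ • (u : F)) :=
    fun _ => rfl
  have hsemi : ∀ (a : k) (u : riemannRochSpace D'), T (a • u) = a ^ q • T u := by
    intro a u
    apply Subtype.ext
    rw [hTapply, Submodule.coe_smul, Submodule.coe_smul, hTapply, Algebra.smul_def,
      Algebra.smul_def, smul_mul', SemilinearAut.smul_algebraMap, hΦ]
    ring
  have hinj : Function.Injective T := by
    intro u u' huu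
    have h1 : h * (Φ • (u : F)) = h * (Φ • (u' : F)) := congrArg Subtype.val huu
    have h2 : Φ • (u : F) = Φ • (u' : F) := mul_left_cancel₀ hh h1
    exact Subtype.ext (MulAction.injective Φ h2)
  obtain ⟨u, hu0, hu⟩ := Lang.exists_fixed_ne_zero hq T hsemi hinj
  refine ⟨(u : F), fun h0 => hu0 (Subtype.ext h0), u.2, ?_⟩
  have := congrArg Subtype.val hu
  rwa [hTapply] at this

variable [HasPrincipalDivisors k F]

include hR in
/-- The pole divisor of a separating variable fixed by `Φ`: effective, `Φ`-fixed, of positive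
degree. -/
theorem exists_poleDiv {t : F} (ht : IsFF k t) (hΦt : Φ • t = t) :
    ∃ D0 : Divisor k F, 0 ≤ D0 ∧ Φ • D0 = D0 ∧ 0 < Divisor.degree D0 := by
  have ht0 : t ≠ 0 := fun h => ht.transcendental (h ▸ isAlgebraic_zero)
  obtain ⟨Dt, hDt, -⟩ := HasPrincipalDivisors.exists_divisor (K := k) t ht0
  set D0 : Divisor k F := Dt.mapRange (fun n => max 0 (-n)) (by simp) with hD0
  have hD0v : ∀ v : Place k F, D0 v = max 0 (-v.ord t) := fun v => by
    rw [hD0, Finsupp.mapRange_apply, hDt v]
  have hnonneg : 0 ≤ D0 := by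
    intro v
    rw [hD0v v]
    exact le_max_left _ _
  refine ⟨D0, hnonneg, ?_, ?_⟩
  · ext w
    rw [SemilinearAut.divisor_smul_apply, hD0v, hD0v, ord_inv_smul_place, hΦt]
  · have hne : D0 ≠ 0 := by
      intro h0
      have hmem : t ∈ riemannRochSpace (0 : Divisor k F) := by
        rw [mem_L_of_ne_zero ht0]
        intro v
        have h1 := hD0v v
        rw [h0] at h1
        simp only [Finsupp.coe_zero, Pi.zero_apply, neg_zero] at h1 ⊢
        have := le_max_right 0 (-v.ord t)
        omega
      obtain ⟨c, hc⟩ := exists_algebraMap_eq_of_mem_L_zero hR hmem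
      exact ht.transcendental (hc ▸ isAlgebraic_algebraMap c)
    have h1 := degree_nonneg hnonneg
    rcases h1.lt_or_eq with h2 | h2
    · exact h2
    · exact absurd (eq_zero_of_degree_eq_zero hR.deg_one hnonneg
        h2.symm) hne

include hR hq hΦ in
/-- **Effective fixed representatives.**  There is a `Φ`-fixed effective divisor `B` such that
every `Φ`-fixed class `[D]` of degree zero is `[E - B]` for a `Φ`-FIXED effective divisor `E` with
`deg E = deg B`. -/
theorem exists_effective_fixed {t : F} (ht : IsFF k t) (hΦt : Φ • t = t) :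
    ∃ B : Divisor k F, 0 ≤ B ∧ ∀ D : Divisor.degZero (K := k) (F := F),
      Φ • Pic0.mk D = Pic0.mk D →
      ∃ E : Divisor k F, 0 ≤ E ∧ Φ • E = E ∧ Divisor.degree E = Divisor.degree B ∧
        ∃ hE : E - B ∈ Divisor.degZero (K := k) (F := F), Pic0.mk ⟨E - B, hE⟩ = Pic0.mk D := by
  obtain ⟨D0, hD0, hΦD0, hdeg0⟩ := exists_poleDiv Φ hR ht hΦt
  obtain ⟨c, hc⟩ := hR.riemann_eq
  set M : ℕ := (max c (g : ℤ)).toNat with hM
  set B : Divisor k F := M • D0 with hB
  have hBnonneg : 0 ≤ B := by
    intro v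
    rw [hB, Finsupp.smul_apply, Finsupp.zero_apply]
    exact nsmul_nonneg (hD0 v) M
  have hΦB : Φ • B = B := by
    rw [hB, smul_comm, hΦD0]
  have hdegB : Divisor.degree B = M * Divisor.degree D0 := by
    rw [hB, map_nsmul, nsmul_eq_mul]
  have hMle : max c (g : ℤ) ≤ Divisor.degree B := by
    rw [hdegB]
    have h1 : max c (g : ℤ) ≤ (M : ℤ) := Int.self_le_toNat _
    have h2 : (0 : ℤ) ≤ (M : ℤ) := Int.natCast_nonneg _
    nlinarith
  refine ⟨B, hBnonneg, fun D hD => ?_⟩
  -- the function `h` with `Φ D - D = div h`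
  rw [SemilinearAut.pic0_smul_mk] at hD
  have hD1 := (QuotientAddGroup.eq).1 hD
  rw [AddSubgroup.mem_addSubgroupOf] at hD1
  obtain ⟨h1, hh1, hdiv1⟩ := hD1
  have hdiv : ∀ v : Place k F, (Φ • (D : Divisor k F)) v = (D : Divisor k F) v + v.ord h1⁻¹ := by
    intro v
    have h2 := hdiv1 v
    simp only [AddSubgroup.coe_add, AddSubgroup.coe_neg, NegMemClass.coe_neg,
      SemilinearAut.coe_degZeroSMulHom, Finsupp.add_apply, Finsupp.neg_apply] at h2
    rw [Place.ord_inv]
    omega
  set h : F := h1⁻¹ with hh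
  have hh0 : h ≠ 0 := inv_ne_zero hh1
  set D' : Divisor k F := (D : Divisor k F) + B with hD'
  have hΦD' : ∀ v : Place k F, (Φ • D') v = D' v + v.ord h := by
    intro v
    rw [hD', smul_add, hΦB, Finsupp.add_apply, Finsupp.add_apply, hdiv v]
    ring
  have hdegD' : Divisor.degree D' = Divisor.degree B := by
    rw [hD', map_add, Divisor.mem_degZero.1 D.2, zero_add]
  have hell : 0 < ell D' := by
    have h2 := hc D' (by rw [hdegD']; exact le_trans (le_max_left _ _) hMle)
    have h3 : (g : ℤ) ≤ Divisor.degree D' := by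
      rw [hdegD']
      exact le_trans (le_max_right _ _) hMle
    have h4 : (0 : ℤ) < (ell D' : ℤ) := by
      rw [h2]
      omega
    exact_mod_cast h4
  obtain ⟨u, hu0, huL, hu⟩ := exists_fixed_in_L Φ hR hq hΦ hh0 hΦD' hell
  obtain ⟨Du, hDu, hDu0⟩ := HasPrincipalDivisors.exists_divisor (K := k) u hu0
  have hΦu0 : Φ • u ≠ 0 := by
    intro h0
    rw [h0, mul_zero] at hu
    exact hu0 hu.symm
  refine ⟨D' + Du, ?_, ?_, ?_, ?_⟩
  · intro v
    have h2 := (mem_L_of_ne_zero hu0).1 huL v
    rw [Finsupp.add_apply, hDu v, Finsupp.zero_apply]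
    omega
  · ext w
    rw [smul_add, Finsupp.add_apply, Finsupp.add_apply, hΦD' w,
      SemilinearAut.divisor_smul_apply, hDu, hDu, ord_inv_smul_place]
    have h2 : w.ord u = w.ord h + w.ord (Φ • u) := by
      conv_lhs => rw [← hu]
      exact w.ord_mul hh0 hΦu0
    omega
  · rw [map_add, hdegD', hDu0, add_zero]
  · have hE : D' + Du - B ∈ Divisor.degZero (K := k) (F := F) := by
      rw [Divisor.mem_degZero, map_sub, map_add, hdegD', hDu0]
      ring
    refine ⟨hE, ?_⟩
    refine (QuotientAddGroup.eq).2 ?_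
    rw [AddSubgroup.mem_addSubgroupOf]
    refine ⟨u⁻¹, inv_ne_zero hu0, fun v => ?_⟩
    simp only [AddSubgroup.coe_add, NegMemClass.coe_neg, Finsupp.add_apply, Finsupp.neg_apply,
      Finsupp.sub_apply]
    rw [hD', Finsupp.add_apply, hDu v, Place.ord_inv]
    ring

end Effective

/-! ### Counting -/

section Count

variable (Φ : SemilinearAut k F)

lemma smul_mem_support {E : Divisor k F} (hΦE : Φ • E = E) {w : Place k F}
    (hw : w ∈ E.support) : Φ • w ∈ E.support := by
  rw [Finsupp.mem_support_iff] at hw ⊢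
  have h := SemilinearAut.divisor_smul_apply_smul Φ E w
  rw [hΦE] at h
  rwa [h]

lemma pow_smul_mem_support {E : Divisor k F} (hΦE : Φ • E = E) {w : Place k F}
    (hw : w ∈ E.support) (i : ℕ) : (Φ ^ i) • w ∈ E.support := by
  induction i with
  | zero => simpa using hw
  | succ i ih =>
    rw [pow_succ', mul_smul]
    exact smul_mem_support Φ hΦE ih

lemma pow_pow_smul_eq {d : ℕ} {v : Place k F} (h : (Φ ^ d) • v = v) (m : ℕ) :
    (Φ ^ (d * m)) • v = v := by
  induction m with
  | zero => simp
  | succ m ih => rw [Nat.mul_succ, pow_add, mul_smul, h, ih]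

variable {g : ℕ} (hR : RiemannHyp k F g)

include hR in
lemma apply_le_degree {E : Divisor k F} (hE : 0 ≤ E) (v : Place k F) :
    E v ≤ Divisor.degree E := by
  classical
  rw [degree_eq_sum, Finsupp.sum]
  by_cases hv : v ∈ E.support
  · have h1 : E v * (v.deg : ℤ) ≤ ∑ w ∈ E.support, E w * (w.deg : ℤ) :=
      Finset.single_le_sum (f := fun w => E w * (w.deg : ℤ))
        (fun w _ => mul_nonneg (hE w) (Int.natCast_nonneg _)) hv
    rw [hR.deg_one v] at h1
    simpa using h1
  · rw [Finsupp.notMem_support_iff] at hv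
    rw [hv]
    exact Finset.sum_nonneg fun w _ => mul_nonneg (hE w) (Int.natCast_nonneg _)

include hR in
lemma card_support_le_degree {E : Divisor k F} (hE : 0 ≤ E) :
    (E.support.card : ℤ) ≤ Divisor.degree E := by
  classical
  rw [degree_eq_sum, Finsupp.sum]
  have h1 : ∀ w ∈ E.support, (1 : ℤ) ≤ E w * (w.deg : ℤ) := by
    intro w hw
    rw [hR.deg_one w]
    have h2 : E w ≠ 0 := Finsupp.mem_support_iff.1 hw
    have h3 : 0 ≤ E w := hE w
    simp only [Nat.cast_one, mul_one]
    omega
  calc (E.support.card : ℤ) = ∑ _w ∈ E.support, (1 : ℤ) := by simp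
    _ ≤ ∑ w ∈ E.support, E w * (w.deg : ℤ) := Finset.sum_le_sum h1

include hR in
/-- The places of a `Φ`-fixed effective divisor of degree `n` are fixed by `Φ ^ n!`. -/
theorem pow_factorial_smul_eq {E : Divisor k F} (hE : 0 ≤ E) (hΦE : Φ • E = E) {n : ℕ}
    (hn : Divisor.degree E = n) {v : Place k F} (hv : v ∈ E.support) :
    (Φ ^ n.factorial) • v = v := by
  classical
  have hcard : E.support.card ≤ n := by
    have := card_support_le_degree hR hE
    rw [hn] at this
    exact_mod_cast this
  obtain ⟨i, hi, j, hj, hij, hfij⟩ := Finset.exists_ne_map_eq_of_card_lt_of_maps_to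
    (s := Finset.range (E.support.card + 1)) (t := E.support) (f := fun i => (Φ ^ i) • v)
    (by rw [Finset.card_range]; omega) (fun i _ => pow_smul_mem_support Φ hΦE hv i)
  rw [Finset.mem_range] at hi hj
  -- a positive period `d ≤ n`
  have key : ∀ a b : ℕ, a < b → b ≤ E.support.card → (Φ ^ a) • v = (Φ ^ b) • v →
      (Φ ^ n.factorial) • v = v := by
    intro a b hab hb hfab
    have h1 : (Φ ^ b) • v = (Φ ^ a) • ((Φ ^ (b - a)) • v) := by
      rw [← mul_smul, ← pow_add]
      congr 2
      omega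
    rw [h1] at hfab
    have h2 : (Φ ^ (b - a)) • v = v := (MulAction.injective (Φ ^ a) hfab).symm
    obtain ⟨m, hm⟩ := Nat.dvd_factorial (show 0 < b - a by omega) (show b - a ≤ n by omega)
    rw [hm]
    exact pow_pow_smul_eq Φ h2 m
  rcases Nat.lt_or_gt_of_ne hij with hlt | hgt
  · exact key i j hlt (by omega) hfij
  · exact key j i hgt (by omega) hfij.symm

variable [IsAlgClosed k] [HasPrincipalDivisors k F] {q : ℕ} (hq : 2 ≤ q)
  (hΦ : ∀ a : k, SemilinearAut.baseAut Φ a = a ^ q) {t : F} (ht : IsFF k t) (hΦt : Φ • t = t)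

include hR hq hΦ ht hΦt in
/-- Finitely many `Φ`-fixed effective divisors of a given degree. -/
theorem finite_effective_fixed (n : ℕ) :
    {E : Divisor k F | 0 ≤ E ∧ Φ • E = E ∧ Divisor.degree E = n}.Finite := by
  classical
  have hQ : 2 ≤ q ^ n.factorial := by
    calc 2 ≤ q := hq
      _ = q ^ 1 := (pow_one q).symm
      _ ≤ q ^ n.factorial := Nat.pow_le_pow_right (by omega) (Nat.factorial_pos n)
  have hfin := finite_fixed_places (Φ ^ n.factorial) hQ (baseAut_pow Φ hΦ n.factorial) ht
    (smul_pow_fixed Φ hΦt n.factorial)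
  refine Set.Finite.subset
    ((hfin.toFinset.finsupp fun _ => Finset.Icc (0 : ℤ) n).finite_toSet) ?_
  rintro E ⟨hE, hΦE, hn⟩
  rw [Finset.mem_coe, Finset.mem_finsupp_iff]
  refine ⟨fun v hv => ?_, fun v _ => ?_⟩
  · rw [Set.Finite.mem_toFinset]
    exact pow_factorial_smul_eq Φ hR hE hΦE hn hv
  · rw [Finset.mem_Icc]
    refine ⟨hE v, ?_⟩
    have := apply_le_degree hR hE v
    rwa [hn] at this

include hR hq hΦ ht hΦt in
/-- **(KP-3'), abstract form.**  A Frobenius-semilinear automorphism of a function field over an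
algebraically closed field which fixes a separating variable has finitely many fixed points on
`Pic0`. -/
theorem finite_fixed_pic0 : {x : Pic0 k F | Φ • x = x}.Finite := by
  classical
  obtain ⟨B, hB, hrep⟩ := exists_effective_fixed Φ hR hq hΦ ht hΦt
  have hdegB : Divisor.degree B = ((Divisor.degree B).toNat : ℤ) :=
    (Int.toNat_of_nonneg (degree_nonneg hB)).symm
  have hS := finite_effective_fixed Φ hR hq hΦ ht hΦt (Divisor.degree B).toNat
  let f : Divisor k F → Pic0 k F := fun E =>
    if hE : E - B ∈ Divisor.degZero (K := k) (F := F) then Pic0.mk ⟨E - B, hE⟩ else 0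
  refine Set.Finite.subset (hS.image f) ?_
  intro x hx
  obtain ⟨D, rfl⟩ := Pic0.mk_surjective x
  obtain ⟨E, hE0, hΦE, hdegE, hE, hmk⟩ := hrep D hx
  refine ⟨E, ⟨hE0, hΦE, by rw [hdegE]; exact hdegB⟩, ?_⟩
  show f E = Pic0.mk D
  rw [← hmk]
  exact dif_pos hE

end Count

end Fermat.Agent.S15.P.FrobFixed.Fixed
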