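/-
PROJECT M (S15), block (K-P) (helper29), item (KP-3'), part 3: THE FROBENIUS OF `JZeroC k N` HAS
FINITELY MANY FIXED POINTS, and so has every power of it.

`k` algebraically closed of characteristic `ℓ`, `N ≥ 1` arbitrary (no hypothesis `ℓ ∤ N` is needed
here: `F_k = k(j(q^d) : d ∣ N)` is a separable function field over `k(j)` for every perfect `k`).
Consumer: for `k` the residue field of a valuation ring of `ℚ̄` over `P ∤ N`, `frobPic0 k N P` is
the `Fb` of main's `S37` reduction package, and `{x | Fb^m x = x}` finite says that the unit root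
`α` of `X² - T_P X + P` satisfies `α^m ≠ 1` on every component.
-/
import Fermat.Agent.S15.P.FrobFixed.Fixed
import Fermat.Agent.S37.Equivariance.CoeffAut
import Fermat.Agent.S18.A.RiemannFk
import Fermat.Agent.S18.B.SeparableFk

set_option autoImplicit false

noncomputable section

namespace Fermat.Agent.S15.P.FrobFixed.X0

open AlgebraicCurve ModularCurve Fermat.Agent.S37.Equivariance.CoeffAut
  Fermat.Agent.S18.B.FkBasics

variable (k : Type*) [Field k] [IsAlgClosed k] (N : ℕ) [NeZero N] (ℓ : ℕ) [Fact ℓ.Prime]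
  [CharP k ℓ]

/-- the Frobenius fixes `j` -/
theorem frob_smul_jk (τ : RingAut k) : coeffAut k N τ • jk k N = jk k N := by
  apply Subtype.ext
  rw [coe_coeffAut_smul]
  exact coeffMap_jqModC (τ : k →+* k)

/-- **(KP-3')**: the `m`-th power of the Frobenius of `JZeroC k N` has finitely many fixed
points (`m ≥ 1`). -/
theorem finite_frobFixed_pow {m : ℕ} (hm : 0 < m) :
    {x : JZeroC k N | (coeffAut k N (frobAut k ℓ) ^ m) • x = x}.Finite := by
  have hsep := Fermat.Agent.S18.B.SeparableFk.isSeparable_jk k N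
  haveI := Fermat.Agent.S18.A.PrincipalDivisors.hasPrincipalDivisors (isFF k N) hsep
  obtain ⟨g, hg⟩ := Fermat.Agent.S18.A.RiemannFk.exists_riemannHyp_Fk' k N hsep
  have hℓ : 2 ≤ ℓ := (Fact.out : ℓ.Prime).two_le
  have hq : 2 ≤ ℓ ^ m := by
    calc 2 ≤ ℓ := hℓ
      _ = ℓ ^ 1 := (pow_one ℓ).symm
      _ ≤ ℓ ^ m := Nat.pow_le_pow_right (by omega) hm
  have hbase : ∀ a : k, SemilinearAut.baseAut (coeffAut k N (frobAut k ℓ)) a = a ^ ℓ := by
    intro a
    rw [baseAut_coeffAut, frobAut_apply]
  exact Fixed.finite_fixed_pic0 (coeffAut k N (frobAut k ℓ) ^ m) hg hq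
    (Fixed.baseAut_pow _ hbase m) (isFF k N)
    (Fixed.smul_pow_fixed _ (frob_smul_jk k N (frobAut k ℓ)) m)

/-- **(KP-3')**: the Frobenius of `JZeroC k N` has finitely many fixed points. -/
theorem finite_frobFixed : {x : JZeroC k N | frobPic0 k N ℓ x = x}.Finite := by
  refine (finite_frobFixed_pow k N ℓ (m := 1) one_pos).subset ?_
  intro x hx
  show (coeffAut k N (frobAut k ℓ) ^ 1) • x = x
  rw [pow_one]
  exact hx

end Fermat.Agent.S15.P.FrobFixed.X0
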