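/-
PROJECT M (S15), block (K-P) (helper29), item (KP-3'), part 4: CONSUMER FORM.

For a valuation ring `A` of `ℚ̄` over `ℓ ∤ N` and a Frobenius element `σ` at `A`: the points `x`
of `J₀(N)(ℚ̄)` with `red (σ^m • x) = red x` have reductions in ONE finite subgroup of
`JZeroC (ResidueField A) N`, hence `red (e • x) = 0` for one `e > 0` depending on `A, N, m` only
(not on `σ`, not on `x`, not on any torsion level).
-/
import Fermat.Agent.S15.P.FrobFixed.X0
import Fermat.Agent.S37.Equivariance.PlaceEquiv
import Fermat.Agent.S18.ResidueBasics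

set_option autoImplicit false

noncomputable section

namespace Fermat.Agent.S15.P.FrobFixed.Red

open AlgebraicCurve ModularCurve IsLocalRing Fermat.Agent.S37.Equivariance.CoeffAut
  Fermat.Agent.S37.Equivariance.PlaceEquiv

variable {ℓ : ℕ} [Fact ℓ.Prime] {N : ℕ} [NeZero N] (A : ValuationSubring (AlgebraicClosure ℚ))

/-- the reduction intertwines `σ ^ m` with the `m`-th power of the Frobenius of `JZeroC k N`. -/
theorem reductionModL_pow_smul (hA : A.LiesOverPrime ℓ) (hℓN : ¬ ℓ ∣ N)
    [CharP (ResidueField A) ℓ] [PerfectField (ResidueField A)]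
    {σ : AlgebraicClosure ℚ ≃ₐ[ℚ] AlgebraicClosure ℚ} (hσ : A.IsFrobeniusAt σ ℓ) (m : ℕ)
    (x : JZero N) :
    reductionModL A N ((σ ^ m) • x)
      = (coeffAut (ResidueField A) N (frobAut (ResidueField A) ℓ) ^ m) • reductionModL A N x := by
  induction m with
  | zero => rw [pow_zero, pow_zero, one_smul, one_smul]
  | succ m ih =>
    rw [pow_succ', mul_smul, reductionModL_smul_frobenius hA hℓN hσ, ih, frobPic0_apply,
      pow_succ', mul_smul]

/-- **(KP-3'), consumer form**: one exponent `e > 0` kills the reduction of every point whose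
reduction is fixed by the `m`-th power of a Frobenius element. -/
theorem exists_exponent (hA : A.LiesOverPrime ℓ) (hℓN : ¬ ℓ ∣ N) {m : ℕ} (hm : 0 < m) :
    ∃ e : ℕ, 0 < e ∧ ∀ σ : AlgebraicClosure ℚ ≃ₐ[ℚ] AlgebraicClosure ℚ, A.IsFrobeniusAt σ ℓ →
      ∀ x : JZero N,
      reductionModL A N ((σ ^ m) • x) = reductionModL A N x →
        reductionModL A N (e • x) = 0 := by
  have : CharP (ResidueField A) ℓ := Fermat.Agent.S18.ResidueBasics.charP_residueField A hA
  have : IsAlgClosed (ResidueField A) :=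
    Fermat.Agent.S18.ResidueBasics.isAlgClosed_residueField A
  have hfin := X0.finite_frobFixed_pow (ResidueField A) N ℓ hm
  set Φ := coeffAut (ResidueField A) N (frobAut (ResidueField A) ℓ) ^ m with hΦ
  let H : AddSubgroup (JZeroC (ResidueField A) N) :=
    { carrier := {y | Φ • y = y}
      zero_mem' := smul_zero Φ
      add_mem' := by
        intro a b ha hb
        show Φ • (a + b) = a + b
        rw [smul_add, ha, hb]
      neg_mem' := by
        intro a ha
        show Φ • (-a) = -a
        rw [smul_neg, ha] }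
  have : Finite H := hfin.to_subtype
  refine ⟨Nat.card H, Nat.card_pos, fun σ hσ x hx => ?_⟩
  have hmem : reductionModL A N x ∈ H := by
    show Φ • reductionModL A N x = reductionModL A N x
    rw [hΦ, ← reductionModL_pow_smul A hA hℓN hσ m x, hx]
  have h0 : Nat.card H • (⟨reductionModL A N x, hmem⟩ : H) = 0 := card_nsmul_eq_zero'
  have h1 : ((Nat.card H • (⟨reductionModL A N x, hmem⟩ : H) : H) : JZeroC (ResidueField A) N)
      = 0 := by rw [h0]; rfl
  rw [map_nsmul]
  rw [AddSubgroup.coe_nsmul] at h1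
  exact h1

/-- the case `m = 1`. -/
theorem exists_exponent_one (hA : A.LiesOverPrime ℓ) (hℓN : ¬ ℓ ∣ N) :
    ∃ e : ℕ, 0 < e ∧ ∀ σ : AlgebraicClosure ℚ ≃ₐ[ℚ] AlgebraicClosure ℚ, A.IsFrobeniusAt σ ℓ →
      ∀ x : JZero N,
      reductionModL A N (σ • x) = reductionModL A N x → reductionModL A N (e • x) = 0 := by
  obtain ⟨e, he, h⟩ := exists_exponent A hA hℓN (m := 1) one_pos
  exact ⟨e, he, fun σ hσ x hx => h σ hσ x (by rwa [pow_one])⟩

end Fermat.Agent.S15.P.FrobFixed.Red
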