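/-
PROJECT M (S15), block (K-P) (helper29), item (KP-3'), part 5: THE FINITE-LEVEL FORM ON `Gk`.

One exponent `e0` (depending on `N, P` only) with: for every level `k`, every excluded set `S`,
every Frobenius element `φ` at the fixed place over `P` and every `g : Gk N P k S`,
`φ g - g ∈ G0red  ⟹  P ^ e0 • g ∈ G0red`.
This is the hypothesis `hfix` of `Struct/NoEigen.no_common_eigenvector` (helper23) at finite level:
the Frobenius-fixed points of the étale quotient `Gk / G0red` are killed by `P ^ e0`, uniformly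
in `k`.
-/
import Fermat.Agent.S15.K.Ord
import Fermat.Agent.S15.P.FrobFixed.Red

set_option autoImplicit false
set_option synthInstance.maxHeartbeats 400000

noncomputable section

namespace Fermat.Agent.S15.P.FrobFixed.Gk

open AlgebraicCurve ModularCurve
open Fermat.Agent.S56.Coh Fermat.Agent.CFT.LC Fermat.Agent.CFT.Bridge Fermat.Agent.CFT.LocalBridge
open Fermat.Agent.S15.K.Kummer Fermat.Agent.S15.K.Star Fermat.Agent.S15.K.Ord

variable {N : ℕ} [NeZero N] {P : ℕ} [Fact P.Prime]

/-- **(KP-3') on `Gk`**: the Frobenius-fixed points of `Gk / G0red` are killed by one power of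
`P`, uniformly in the level `k` (and in `S`, and in the choice of the Frobenius element). -/
theorem exists_pow_fixed (hPN : ¬ P ∣ N) :
    ∃ e0 : ℕ, ∀ (k : ℕ) (S : Set ℕ) (φ : GQ), (padicPlace P).IsFrobeniusAt φ P →
      ∀ g : Gk N P k S, (Gk N P k S).ρ φ g - g ∈ G0red N P k S →
        (P ^ e0) • g ∈ G0red N P k S := by
  have hP : P.Prime := Fact.out
  obtain ⟨e, he, h⟩ := Red.exists_exponent_one (N := N) (padicPlace P)
    (liesOverPrime_padicPlace P) hPN
  obtain ⟨e0, e', he', hee⟩ := Nat.exists_eq_pow_mul_and_not_dvd he.ne' P hP.ne_one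
  refine ⟨e0, fun k S φ hφ g hg => ?_⟩
  have h1 : reductionModL (padicPlace P) N (φ • incl N P k S g)
      = reductionModL (padicPlace P) N (incl N P k S g) := by
    rw [mem_G0red_iff, map_sub, incl_ρ, map_sub, sub_eq_zero] at hg
    exact hg
  have h2 := h φ hφ (incl N P k S g) h1
  have h3 : e • g ∈ G0red N P k S := by
    rw [mem_G0red_iff, map_nsmul]
    exact h2
  have hcop : Nat.Coprime e' (P ^ k) :=
    Nat.Coprime.pow_right k ((Nat.Prime.coprime_iff_not_dvd hP).2 he').symm
  have h4 : ((ZMod.unitOfCoprime e' hcop)⁻¹ : (ZMod (P ^ k))ˣ) • (e • g) ∈ G0red N P k S :=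
    (G0red N P k S).smul_mem _ h3
  have h5 : ((ZMod.unitOfCoprime e' hcop)⁻¹ : (ZMod (P ^ k))ˣ) • (e • g) = (P ^ e0) • g := by
    rw [hee, mul_comm, mul_smul, ← Nat.cast_smul_eq_nsmul (ZMod (P ^ k)) e']
    have : ((e' : ℕ) : ZMod (P ^ k)) = ((ZMod.unitOfCoprime e' hcop : (ZMod (P ^ k))ˣ) :
        ZMod (P ^ k)) := (ZMod.coe_unitOfCoprime e' hcop).symm
    rw [this, ← Units.smul_def, inv_smul_smul]
  rw [← h5]
  exact h4

end Fermat.Agent.S15.P.FrobFixed.Gk
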